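import Fermat.Agent.ESG.Sep

set_option autoImplicit false
set_option linter.unusedSectionVars false

/-!
# The dimension of the space of parabolic homomorphisms, for `Γ₁(N) ≤ G ≤ Γ₀(N)`
-/

open UpperHalfPlane hiding I
open Filter Matrix.SpecialLinearGroup CongruenceSubgroup ModularForm Module
open Fermat.Agent.ES Fermat.Agent.ESCore Fermat.Agent.ESCore.UnivG Fermat.Agent.ESCore.Gal
open scoped MatrixGroups Manifold ModularForm Topology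

noncomputable section

namespace Fermat.Agent.ESG

variable {N : ℕ} {Γ : Subgroup SL(2, ℤ)}

/-- the inclusion of the cusp forms -/
def incS (Γ : Subgroup SL(2, ℤ)) : S2 Γ →ₗ[ℂ] mform (1 : Γ →* ℂˣ) 2 :=
  Submodule.inclusion fun _ h => h.1

theorem vvF_VC [Fintype (SL(2, ℤ) ⧸ Γ)] [DecidableEq (SL(2, ℤ) ⧸ Γ)] (f : S2 Γ) :
    (vvF Γ 2).comp (incS Γ) f ∈ VC (SL(2, ℤ) ⧸ Γ) 2 := by
  refine ⟨vvF_mem _, fun p => ?_⟩
  obtain ⟨g, rfl⟩ := QuotientGroup.mk_surjective p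
  exact f.2.2 g⁻¹

/-- cusp forms of weight two as vector valued forms -/
def S2lin (Γ : Subgroup SL(2, ℤ)) [Fintype (SL(2, ℤ) ⧸ Γ)] [DecidableEq (SL(2, ℤ) ⧸ Γ)] :
    S2 Γ →ₗ[ℂ] VC (SL(2, ℤ) ⧸ Γ) 2 :=
  ((vvF Γ 2).comp (incS Γ)).codRestrict _ vvF_VC

theorem S2lin_mk [Fintype (SL(2, ℤ) ⧸ Γ)] [DecidableEq (SL(2, ℤ) ⧸ Γ)] (f : S2 Γ)
    (g : SL(2, ℤ)) : (S2lin Γ f).1 (g : SL(2, ℤ) ⧸ Γ) = f.1 ∣[(2 : ℤ)] g⁻¹ := rfl

theorem S2lin_bijective [Fintype (SL(2, ℤ) ⧸ Γ)] [DecidableEq (SL(2, ℤ) ⧸ Γ)] :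
    Function.Bijective (S2lin Γ) := by
  constructor
  · rw [injective_iff_map_eq_zero]
    intro f hf
    have h1 := congrFun (congrArg Subtype.val hf) ((1 : SL(2, ℤ)) : SL(2, ℤ) ⧸ Γ)
    rw [S2lin_mk, inv_one, SlashAction.slash_one] at h1
    exact Subtype.ext h1
  · intro F
    have key : F.1 ((1 : SL(2, ℤ)) : SL(2, ℤ) ⧸ Γ) ∈ S2 Γ := by
      refine ⟨⟨F.2.1.1 _, fun γ => ?_, fun A => ?_⟩, fun A => ?_⟩
      · rw [MonoidHom.one_apply, Units.val_one, one_smul]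
        have h := VV_slash F.2.1 (γ : SL(2, ℤ)) ((1 : SL(2, ℤ)) : SL(2, ℤ) ⧸ Γ)
        have h2 : (γ : SL(2, ℤ))⁻¹ • ((1 : SL(2, ℤ)) : SL(2, ℤ) ⧸ Γ) =
            ((1 : SL(2, ℤ)) : SL(2, ℤ) ⧸ Γ) := by
          have h1 : (γ : SL(2, ℤ))⁻¹ • ((1 : SL(2, ℤ)) : SL(2, ℤ) ⧸ Γ) =
            (((γ : SL(2, ℤ))⁻¹ * 1 : SL(2, ℤ)) : SL(2, ℤ) ⧸ Γ) := rfl
          rw [h1, mul_one, QuotientGroup.eq, inv_inv, mul_one]
          exact γ.2
        rw [h2] at h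
        exact h
      · rw [VV_slash F.2.1]
        exact F.2.1.2.1 _
      · rw [VV_slash F.2.1]
        exact F.2.2 _
    refine ⟨⟨_, key⟩, ?_⟩
    apply Subtype.ext
    funext p
    obtain ⟨h, rfl⟩ := QuotientGroup.mk_surjective p
    rw [S2lin_mk]
    change (F.1 ((1 : SL(2, ℤ)) : SL(2, ℤ) ⧸ Γ)) ∣[(2 : ℤ)] h⁻¹ = F.1 (h : SL(2, ℤ) ⧸ Γ)
    rw [VV_slash F.2.1, inv_inv]
    have h1 : h • ((1 : SL(2, ℤ)) : SL(2, ℤ) ⧸ Γ) = ((h * 1 : SL(2, ℤ)) : SL(2, ℤ) ⧸ Γ) := rfl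
    rw [h1, mul_one]

/-- the equivalence -/
def S2equiv (Γ : Subgroup SL(2, ℤ)) [Fintype (SL(2, ℤ) ⧸ Γ)] [DecidableEq (SL(2, ℤ) ⧸ Γ)] :
    S2 Γ ≃ₗ[ℂ] VC (SL(2, ℤ) ⧸ Γ) 2 := LinearEquiv.ofBijective (S2lin Γ) S2lin_bijective

theorem finite_S2_aux (Γ : Subgroup SL(2, ℤ)) [Γ.FiniteIndex] : Module.Finite ℂ (S2 Γ) := by
  classical
  have : Finite (SL(2, ℤ) ⧸ Γ) := Subgroup.finite_quotient_of_finiteIndex
  have := Fintype.ofFinite (SL(2, ℤ) ⧸ Γ)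
  exact Module.Finite.equiv (S2equiv Γ).symm

instance finite_S2 [Γ.FiniteIndex] : Module.Finite ℂ (S2 Γ) := finite_S2_aux Γ

instance finite_par [Γ.FiniteIndex] :
    Module.Finite ℂ (ModularCurve.Period.parabolicHoms ℂ Γ ℂ) := by
  classical
  have : Finite (SL(2, ℤ) ⧸ Γ) := Subgroup.finite_quotient_of_finiteIndex
  have := Fintype.ofFinite (SL(2, ℤ) ⧸ Γ)
  exact finite_parabolicHoms

/-- the dimension bound, groups containing `-1` -/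
theorem finrank_par_le_neg [NeZero N] (h1 : Gamma1 N ≤ Γ) (h0 : Γ ≤ Gamma0 N)
    (hneg : (-1 : SL(2, ℤ)) ∈ Γ) :
    finrank ℂ (ModularCurve.Period.parabolicHoms ℂ Γ ℂ) ≤ 2 * finrank ℂ (S2 Γ) := by
  classical
  have : Γ.FiniteIndex := Subgroup.finiteIndex_of_le h1
  have : Finite (SL(2, ℤ) ⧸ Γ) := Subgroup.finite_quotient_of_finiteIndex
  have := Fintype.ofFinite (SL(2, ℤ) ⧸ Γ)
  have : Nonempty (SL(2, ℤ) ⧸ Γ) := ⟨((1 : SL(2, ℤ)) : SL(2, ℤ) ⧸ Γ)⟩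
  have hn := negTriv_of_mem hneg
  have e0 := finrank_par_le hn
  have e1 := finrank_W_le hn
  have e6 := le_finrank_Einv (P := SL(2, ℤ) ⧸ Γ)
  have e2 := finrank_VC_two_ge hn (hasSep h1 h0 hneg)
  rw [← LinearEquiv.finrank_eq (S2equiv Γ)] at e2
  change 12 + Fintype.card (SL(2, ℤ) ⧸ Γ) ≤ 12 * finrank ℂ (S2 Γ) +
    4 * Nat.card {p : SL(2, ℤ) ⧸ Γ // Um • p = p} +
    3 * Nat.card {p : SL(2, ℤ) ⧸ Γ // ModularGroup.S • p = p} +
    6 * Nat.card (TOrb (SL(2, ℤ) ⧸ Γ)) at e2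
  omega

/-! ### Adding `-1` -/

/-- the group generated by `Γ` and `-1` -/
def pmG (Γ : Subgroup SL(2, ℤ)) : Subgroup SL(2, ℤ) where
  carrier := {g | g ∈ Γ ∨ -g ∈ Γ}
  mul_mem' := by
    rintro a b (ha | ha) (hb | hb)
    · exact Or.inl (mul_mem ha hb)
    · refine Or.inr ?_
      have := mul_mem ha hb
      rwa [mul_neg] at this
    · refine Or.inr ?_
      have := mul_mem ha hb
      rwa [neg_mul] at this
    · refine Or.inl ?_
      have := mul_mem ha hb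
      rwa [neg_mul_neg] at this
  one_mem' := Or.inl (one_mem _)
  inv_mem' := by
    rintro a (ha | ha)
    · exact Or.inl (inv_mem ha)
    · refine Or.inr ?_
      have := inv_mem ha
      rwa [inv_neg] at this

theorem mem_pmG {g : SL(2, ℤ)} : g ∈ pmG Γ ↔ g ∈ Γ ∨ -g ∈ Γ := Iff.rfl

theorem le_pmG : Γ ≤ pmG Γ := fun _ h => Or.inl h

theorem neg_one_mem_pmG : (-1 : SL(2, ℤ)) ∈ pmG Γ := Or.inr (by rw [neg_neg]; exact one_mem _)

theorem pmG_le (h0 : Γ ≤ Gamma0 N) : pmG Γ ≤ Gamma0 N := by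
  rintro g (hg | hg)
  · exact h0 hg
  · have h2 := h0 hg
    rw [Gamma0_mem] at h2 ⊢
    simpa using h2

theorem sq_mem {g : SL(2, ℤ)} (hg : g ∈ pmG Γ) : g ^ 2 ∈ Γ := by
  rcases hg with h | h
  · exact pow_mem h 2
  · have := pow_mem h 2
    rwa [neg_sq] at this

theorem slash_neg_SL (f : ℍ → ℂ) (g : SL(2, ℤ)) : f ∣[(2 : ℤ)] (-g) = f ∣[(2 : ℤ)] g := by
  ext τ
  rw [SL_slash_apply, SL_slash_apply, ModularGroup.SL_neg_smul]
  congr 1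
  have h6 : denom (-g : SL(2, ℤ)) (τ : ℂ) = - denom g (τ : ℂ) := by
    simp [denom]
    ring
  rw [h6, Even.neg_zpow (by decide)]

theorem S2_pmG : S2 (pmG Γ) = S2 Γ := by
  ext f
  constructor
  · rintro ⟨⟨h1, h2, h3⟩, h4⟩
    refine ⟨⟨h1, fun γ => ?_, h3⟩, h4⟩
    exact h2 ⟨γ, le_pmG γ.2⟩
  · rintro ⟨⟨h1, h2, h3⟩, h4⟩
    refine ⟨⟨h1, fun γ => ?_, h3⟩, h4⟩
    rw [MonoidHom.one_apply, Units.val_one, one_smul]
    rcases γ.2 with h | h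
    · have := h2 ⟨γ, h⟩
      rwa [MonoidHom.one_apply, Units.val_one, one_smul] at this
    · have h5 := h2 ⟨-γ, h⟩
      rw [MonoidHom.one_apply, Units.val_one, one_smul] at h5
      have h6 : f ∣[(2 : ℤ)] (-(γ : SL(2, ℤ))) = f := h5
      rw [slash_neg_SL] at h6
      exact h6

/-- extension of the parabolic homomorphisms -/
def extPar (Γ : Subgroup SL(2, ℤ)) : ModularCurve.Period.parabolicHoms ℂ Γ ℂ →ₗ[ℂ]
    ModularCurve.Period.parabolicHoms ℂ (pmG Γ) ℂ where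
  toFun c := ⟨{
    toFun := fun g => (2 : ℂ)⁻¹ * c.1 (Additive.ofMul ⟨(g.toMul : SL(2, ℤ)) ^ 2, sq_mem g.toMul.2⟩)
    map_zero' := by
      have h : (⟨(((0 : Additive (pmG Γ)).toMul : pmG Γ) : SL(2, ℤ)) ^ 2,
          sq_mem (0 : Additive (pmG Γ)).toMul.2⟩ : Γ) = 1 := Subtype.ext (one_pow 2)
      rw [h, ofMul_one, map_zero, mul_zero]
    map_add' := by
      intro g h
      have key : ∀ g : pmG Γ, ∃ γ : Γ, ((γ : SL(2, ℤ)) = g ∨ (γ : SL(2, ℤ)) = -g) ∧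
          c.1 (Additive.ofMul ⟨(g : SL(2, ℤ)) ^ 2, sq_mem g.2⟩) =
            2 * c.1 (Additive.ofMul γ) := by
        intro g
        have h2 : ∀ γ : Γ, (γ : SL(2, ℤ)) = g ∨ (γ : SL(2, ℤ)) = -g →
            c.1 (Additive.ofMul ⟨(g : SL(2, ℤ)) ^ 2, sq_mem g.2⟩) =
            2 * c.1 (Additive.ofMul γ) := by
          intro γ hγ
          have h3 : (⟨(g : SL(2, ℤ)) ^ 2, sq_mem g.2⟩ : Γ) = γ * γ := by
            apply Subtype.ext
            rcases hγ with h | h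
            · change (g : SL(2, ℤ)) ^ 2 = (γ : SL(2, ℤ)) * γ
              rw [h, sq]
            · change (g : SL(2, ℤ)) ^ 2 = (γ : SL(2, ℤ)) * γ
              rw [h, sq, neg_mul_neg]
          rw [h3, ofMul_mul, map_add]
          ring
        rcases g.2 with h | h
        · exact ⟨⟨g, h⟩, Or.inl rfl, h2 _ (Or.inl rfl)⟩
        · exact ⟨⟨-g, h⟩, Or.inr rfl, h2 _ (Or.inr rfl)⟩
      obtain ⟨γ, hγ, eγ⟩ := key g.toMul
      obtain ⟨δ, hδ, eδ⟩ := key h.toMul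
      have h3 : (⟨(((g + h).toMul : pmG Γ) : SL(2, ℤ)) ^ 2, sq_mem (g + h).toMul.2⟩ : Γ) =
          (γ * δ) * (γ * δ) := by
        apply Subtype.ext
        change ((g.toMul : SL(2, ℤ)) * (h.toMul : SL(2, ℤ))) ^ 2 =
          ((γ : SL(2, ℤ)) * δ) * ((γ : SL(2, ℤ)) * δ)
        rcases hγ with e1 | e1 <;> rcases hδ with e2 | e2 <;> rw [e1, e2, sq] <;>
          simp only [neg_mul, mul_neg, neg_neg]
      rw [h3, eγ, eδ, ofMul_mul, ofMul_mul, map_add, map_add]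
      ring }, by
    intro g hg
    change (2 : ℂ)⁻¹ * c.1 (Additive.ofMul ⟨(g : SL(2, ℤ)) ^ 2, sq_mem g.2⟩) = 0
    have h2 : c.1 (Additive.ofMul ⟨(g : SL(2, ℤ)) ^ 2, sq_mem g.2⟩) = 0 := by
      refine c.2 _ ?_
      rcases g.2 with h | h
      · have e : ((⟨(g : SL(2, ℤ)) ^ 2, sq_mem g.2⟩ : Γ) : SL(2, ℤ)) = g * g := sq _
        rw [e]
        have hdet := (g : SL(2, ℤ)).det_coe
        rw [Matrix.det_fin_two] at hdet
        rw [Matrix.trace_fin_two] at hg ⊢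
        rw [Matrix.SpecialLinearGroup.coe_mul, Matrix.mul_apply, Matrix.mul_apply,
          Fin.sum_univ_two, Fin.sum_univ_two]
        have e2 : (g : SL(2, ℤ)) 0 0 * (g : SL(2, ℤ)) 0 0 + (g : SL(2, ℤ)) 0 1 * (g : SL(2, ℤ)) 1 0 +
          ((g : SL(2, ℤ)) 1 0 * (g : SL(2, ℤ)) 0 1 + (g : SL(2, ℤ)) 1 1 * (g : SL(2, ℤ)) 1 1) = 2 := by
          linear_combination hg - 2 * hdet
        rw [e2]
        norm_num
      · have e : ((⟨(g : SL(2, ℤ)) ^ 2, sq_mem g.2⟩ : Γ) : SL(2, ℤ)) = g * g := sq _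
        rw [e]
        have hdet := (g : SL(2, ℤ)).det_coe
        rw [Matrix.det_fin_two] at hdet
        rw [Matrix.trace_fin_two] at hg ⊢
        rw [Matrix.SpecialLinearGroup.coe_mul, Matrix.mul_apply, Matrix.mul_apply,
          Fin.sum_univ_two, Fin.sum_univ_two]
        have e2 : (g : SL(2, ℤ)) 0 0 * (g : SL(2, ℤ)) 0 0 + (g : SL(2, ℤ)) 0 1 * (g : SL(2, ℤ)) 1 0 +
          ((g : SL(2, ℤ)) 1 0 * (g : SL(2, ℤ)) 0 1 + (g : SL(2, ℤ)) 1 1 * (g : SL(2, ℤ)) 1 1) = 2 := by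
          linear_combination hg - 2 * hdet
        rw [e2]
        norm_num
    rw [h2, mul_zero]⟩
  map_add' c d := by
    apply Subtype.ext
    refine AddMonoidHom.ext fun g => ?_
    exact mul_add _ _ _
  map_smul' a c := by
    apply Subtype.ext
    refine AddMonoidHom.ext fun g => ?_
    exact mul_left_comm _ _ _

theorem extPar_injective : Function.Injective (extPar Γ) := by
  rw [injective_iff_map_eq_zero]
  intro c hc
  apply Subtype.ext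
  refine AddMonoidHom.ext fun γ => ?_
  have h1 := congrArg Subtype.val hc
  have h2 := DFunLike.congr_fun h1 (Additive.ofMul (⟨(γ.toMul : SL(2, ℤ)), le_pmG γ.toMul.2⟩ : pmG Γ))
  have h3 : (2 : ℂ)⁻¹ * c.1 (Additive.ofMul (⟨(γ.toMul : SL(2, ℤ)) ^ 2,
    sq_mem (le_pmG γ.toMul.2)⟩ : Γ)) = 0 := h2
  have h4 : (⟨(γ.toMul : SL(2, ℤ)) ^ 2, sq_mem (le_pmG γ.toMul.2)⟩ : Γ) = γ.toMul * γ.toMul :=
    Subtype.ext (sq _)
  rw [h4, ofMul_mul, map_add] at h3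
  change c.1 γ = 0
  have h5 : c.1 (Additive.ofMul γ.toMul) = c.1 γ := rfl
  rw [h5] at h3
  linear_combination h3

/-- **The dimension bound.** -/
theorem finrank_par_le_two_mul [NeZero N] (h1 : Gamma1 N ≤ Γ) (h0 : Γ ≤ Gamma0 N) :
    finrank ℂ (ModularCurve.Period.parabolicHoms ℂ Γ ℂ) ≤ 2 * finrank ℂ (S2 Γ) := by
  have : (pmG Γ).FiniteIndex := Subgroup.finiteIndex_of_le (h1.trans le_pmG)
  have e1 := finrank_par_le_neg (h1.trans le_pmG) (pmG_le h0) neg_one_mem_pmG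
  rw [S2_pmG] at e1
  exact (LinearMap.finrank_le_finrank_of_injective extPar_injective).trans e1

end Fermat.Agent.ESG
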