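import Fermat.Agent.ESG.Pair
import Fermat.Agent.RT.Bridge

set_option autoImplicit false
set_option linter.unusedSectionVars false

/-!
# Points of the Hecke algebra of `G` come from cusp forms
-/

open UpperHalfPlane hiding I
open Filter Complex Matrix.SpecialLinearGroup CongruenceSubgroup ModularForm Module
open Fermat.Agent.ES Fermat.Agent.ESCore Fermat.Agent.ESCore.UnivG Fermat.Agent.ESCore.Gal
open ModularCurve.Period Fermat.Agent.RT.Ihara
open Fermat.Agent.ESCore.Univ (Idx)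
open Multiplicative (toAdd ofAdd)
open scoped MatrixGroups Manifold ModularForm Topology

noncomputable section

namespace Fermat.Agent.ESG

variable {N : ℕ} {G : Subgroup SL(2, ℤ)} (h1 : Gamma1 N ≤ G) (h0 : G ≤ Gamma0 N)

theorem jConj_coe (g : SL(2, ℤ)) : ((jConjSL g : SL(2, ℤ)) : Mat) = jConjMat (g : Mat) := rfl

section

variable {A : Type*} [AddCommGroup A]

include h1 h0 in
/-- `T_l` commutes with the conjugation by `diag(1, -1)` -/
theorem opc_jConj {l : ℕ} (hl : l.Prime) (hNl : IsCoprime (N : ℤ) (l : ℤ)) {c : SL(2, ℤ) → A}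
    (hc : AddOn G c) {g : SL(2, ℤ)} (hg : g ∈ G) :
    opc G (TD N l) (fun h => c (jConjSL h)) g = opc G (TD N l) c (jConjSL g) := by
  have HD := corr_TD h1 h0 hl hNl
  have hinj : ∀ x y, ∀ g : SL(2, ℤ), jConjMat (TD N l x) = (g : Mat) * jConjMat (TD N l y) →
      x = y := by
    intro x y g e
    have e2 := congrArg jConjMat e
    rw [jConjMat_jConjMat, jConjMat_mul, jConjMat_jConjMat, ← jConj_coe] at e2
    exact TD_unique hl e2
  obtain ⟨f, hf⟩ := exists_equiv_TD h1 h0 hl hNl (P := fun x => jConjMat (TD N l x))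
    (fun x => by
      have h := TD_gmat hNl x
      constructor
      · rw [jConjMat_apply_one_zero]
        exact (dvd_neg).mpr h.d10
      · rw [jConjMat_apply_zero_zero]
        exact h.d00)
    (fun x => by rw [jConjMat_det, TD_det]) hinj
  have HD' : Corr G G (fun x => jConjMat (TD N l x)) := HD.of_equiv f hf
  have hrel : ∀ x, relG G (TD N l (f x)) (jConjMat (TD N l x)) := by
    intro x
    obtain ⟨g, hg, e⟩ := hf x
    exact ⟨1, 1, one_pos, one_pos, g, hg, by rw [e]⟩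
  have hc' : AddOn G (fun h => c (jConjSL h)) := by
    intro a ha b hb
    beta_reduce
    rw [map_mul]
    exact hc _ (jConj_mem h1 h0 ha) _ (jConj_mem h1 h0 hb)
  obtain ⟨σ, γ, hγ, e⟩ := HD.exists_perm hg
  have e' : ∀ x, jConjMat (TD N l x) * ((jConjSL g : SL(2, ℤ)) : Mat) =
      ((jConjSL (γ x) : SL(2, ℤ)) : Mat) * jConjMat (TD N l (σ x)) := by
    intro x
    rw [jConj_coe, jConj_coe, ← jConjMat_mul, ← jConjMat_mul, e]
  rw [HD.opc_eq hc' hg hγ e, ← opc_eq_of_equiv HD' HD hc f hrel (jConj_mem h1 h0 hg),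
    HD'.opc_eq hc (jConj_mem h1 h0 hg) (fun x => jConj_mem h1 h0 (hγ x)) e']

/-- `T_l` commutes with the conjugation by `diag(1, -1)`, on characters -/
theorem heckeCharG_jG {l : ℕ} (hl : l.Prime) (hN : ¬ l ∣ N) (χ : G →* Multiplicative A) :
    heckeCharG hl hN h1 h0 (χ.comp (jG h1 h0)) =
      (heckeCharG hl hN h1 h0 χ).comp (jG h1 h0) := by
  set c : H1 ℤ A G := ofChar χ with hc
  have e1 : χ = toChar c := rfl
  set c' : H1 ℤ A G := ofChar (χ.comp (jG h1 h0)) with hc'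
  have e2 : χ.comp (jG h1 h0) = toChar c' := rfl
  rw [e2, e1, heckeCharG_toChar, heckeCharG_toChar]
  ext g
  rw [MonoidHom.comp_apply, toChar_apply, toChar_apply, opH_apply, opH_apply, coe_jG]
  congr 1
  have hNl := isCoprime_N hl hN
  rw [← opc_jConj h1 h0 hl hNl (addOn_ex c) g.2]
  refine (corr_TD h1 h0 hl hNl).opc_congr (addOn_ex c') (fun h hh => ?_) g.2
  rw [ex_apply _ hh, ex_apply _ (jConj_mem h1 h0 hh)]
  rfl

theorem diaChar_jG (δ : Gamma0 N) (χ : G →* Multiplicative A) :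
    diaChar h1 h0 δ (χ.comp (jG h1 h0)) = (diaChar h1 h0 δ χ).comp (jG h1 h0) := by
  have h2 : diaChar h1 h0 δ χ = diaChar h1 h0 (jConjGamma0 N δ) χ := by
    refine UnivG.diaChar_eq (h1 := h1) (h0 := h0) ?_ χ
    apply Units.ext
    rw [dU_coe, dU_coe]
    rfl
  rw [h2]
  ext g
  rw [MonoidHom.comp_apply, diaChar_apply, diaChar_apply, MonoidHom.comp_apply]
  congr 1
  apply congrArg
  apply Subtype.ext
  change jConjSL ((δ : SL(2, ℤ)) * (g : SL(2, ℤ)) * (δ : SL(2, ℤ))⁻¹) =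
    jConjSL (δ : SL(2, ℤ)) * jConjSL (g : SL(2, ℤ)) * (jConjSL (δ : SL(2, ℤ)))⁻¹
  rw [map_mul, map_mul, map_inv]

include h1 h0 in
/-- eigenvectors of one `T_l`, `l ≡ 1 mod N`, with a non-Eisenstein eigenvalue are parabolic -/
theorem parabolic_of_eigen' {K : Type*} [Field K] [CharZero K] {l : ℕ} (hl : l.Prime)
    (hN : ¬ l ∣ N) (hl1 : N ∣ l - 1) {χ : G →* Multiplicative K} {a : K}
    (ha : ∀ γ, toAdd (heckeCharG hl hN h1 h0 χ γ) = a * toAdd (χ γ)) (hal : a ≠ l + 1)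
    (γ : G) (hγ : ((γ : SL(2, ℤ)) : Mat).trace ^ 2 = 4) : χ γ = 1 := by
  -- the square
  have hsq : (γ ^ 2 : G) = γ * γ := sq γ
  have htr : ((γ ^ 2 : G) : SL(2, ℤ)) 0 0 + ((γ ^ 2 : G) : SL(2, ℤ)) 1 1 = 2 := by
    have hdet := (γ : SL(2, ℤ)).det_coe
    rw [Matrix.det_fin_two] at hdet
    rw [Matrix.trace_fin_two] at hγ
    have e : ((γ ^ 2 : G) : SL(2, ℤ)) = (γ : SL(2, ℤ)) * (γ : SL(2, ℤ)) := by rw [hsq]; rfl
    rw [e, Matrix.SpecialLinearGroup.coe_mul, Matrix.mul_apply, Matrix.mul_apply,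
      Fin.sum_univ_two, Fin.sum_univ_two]
    linear_combination hγ - 2 * hdet
  obtain ⟨h, t, e⟩ := exists_parabolic _ htr
  set c : H1 ℤ K G := ofChar χ with hc
  have e1 : χ = toChar c := rfl
  have hmem : h * up t * h⁻¹ ∈ G := by rw [← e]; exact (γ ^ 2 : G).2
  have hl1' : (N : ℤ) ∣ (l : ℤ) - 1 := by
    have := Int.natCast_dvd_natCast.mpr hl1
    rwa [Nat.cast_sub hl.one_lt.le, Nat.cast_one] at this
  have h2 := opc_parabolic h1 h0 hl (isCoprime_N hl hN) hl1' (addOn_ex c) h t hmem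
  have h3 := ha (γ ^ 2)
  rw [e1, heckeCharG_toChar, toChar_apply, toChar_apply, toAdd_ofAdd, toAdd_ofAdd, opH_apply] at h3
  rw [← e] at h2
  rw [h2, ex_apply _ (γ ^ 2 : G).2] at h3
  have h4 : (a - (l + 1)) * c.1 (γ ^ 2) = 0 := by
    have h5 : ((l + 1 : ℕ) : K) * c.1 (γ ^ 2) = a * c.1 (γ ^ 2) := by
      rw [← h3, ← nsmul_eq_mul]
    push_cast at h5
    linear_combination -h5
  have h5 : c.1 (γ ^ 2) = 0 :=
    (mul_eq_zero.mp h4).resolve_left (sub_ne_zero.mpr hal)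
  have h6 : c.1 (γ ^ 2) = c.1 γ + c.1 γ := by rw [hsq]; exact c.2 γ γ
  rw [h6, ← two_mul] at h5
  have h7 : c.1 γ = 0 := (mul_eq_zero.mp h5).resolve_left two_ne_zero
  exact h7

end

variable [NeZero N]

/-- the additive version of a character -/
def addC (χ : G →* Multiplicative ℂ) : Additive G →+ ℂ where
  toFun γ := toAdd (χ γ.toMul)
  map_zero' := by
    change toAdd (χ 1) = 0
    rw [map_one]
    rfl
  map_add' a b := by
    change toAdd (χ (a.toMul * b.toMul)) = _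
    rw [map_mul]
    rfl

theorem addC_per (hN : 0 < N) (f : S2 G) : addC (per h1 hN f) = perA h1 hN f := rfl

/-- **Simultaneous eigenvectors come from cusp forms.** -/
theorem exists_eigenforms {S : Finset ℕ} {χ : G →* Multiplicative ℂ}
    (hpar : ∀ γ : G, ((γ : SL(2, ℤ)) : Mat).trace ^ 2 = 4 → χ γ = 1)
    {a : Idx N S → ℂ} {d : Gamma0 N → ℂ}
    (ha : ∀ (i : Idx N S) (γ : G), toAdd (heckeCharG i.2.1 i.2.2.1 h1 h0 χ γ) =
      a i * toAdd (χ γ))
    (hd : ∀ (δ : Gamma0 N) (γ : G), toAdd (diaChar h1 h0 δ χ γ) = d δ * toAdd (χ γ)) :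
    ∃ f g : S2 G, (∀ γ : G, toAdd (χ γ) =
        toAdd (per h1 (Nat.pos_of_ne_zero (NeZero.ne N)) f γ) +
        toAdd (per h1 (Nat.pos_of_ne_zero (NeZero.ne N)) g (jG h1 h0 γ))) ∧
      (∀ i : Idx N S, heckeS2 h1 h0 i.2.1 i.2.2.1 f = a i • f ∧
        heckeS2 h1 h0 i.2.1 i.2.2.1 g = a i • g) ∧
      ∀ δ, diaS2 h1 h0 δ f = d δ • f ∧ diaS2 h1 h0 δ g = d δ • g := by
  have hN := Nat.pos_of_ne_zero (NeZero.ne N)
  obtain ⟨f, g, e⟩ := exists_pair h1 h0 hN (c := addC χ) (fun γ hγ => hpar γ hγ)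
  have hχ : χ = per h1 hN f * (per h1 hN g).comp (jG h1 h0) := by
    ext γ
    exact DFunLike.congr_fun e (Additive.ofMul γ)
  refine ⟨f, g, fun γ => DFunLike.congr_fun e (Additive.ofMul γ), fun i => ?_, fun δ => ?_⟩
  · have key : pairA h1 h0 hN (heckeS2 h1 h0 i.2.1 i.2.2.1 f - a i • f,
        heckeS2 h1 h0 i.2.1 i.2.2.1 g - a i • g) = 0 := by
      refine AddMonoidHom.ext fun γ => ?_
      have h2 := ha i γ.toMul
      have h3 : heckeCharG i.2.1 i.2.2.1 h1 h0 χ =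
          per h1 hN (heckeS2 h1 h0 i.2.1 i.2.2.1 f) *
            (per h1 hN (heckeS2 h1 h0 i.2.1 i.2.2.1 g)).comp (jG h1 h0) := by
        rw [hχ, map_mul, heckeCharG_jG, ← per_hecke, ← per_hecke]
      rw [h3] at h2
      have h4 : toAdd (χ γ.toMul) = perA h1 hN f γ + jA h1 h0 (perA h1 hN g) γ :=
        DFunLike.congr_fun e γ
      rw [h4] at h2
      rw [pairA_apply, map_sub, map_sub, map_sub, map_smul, map_smul, map_smul]
      have h5 : perA h1 hN (heckeS2 h1 h0 i.2.1 i.2.2.1 f) γ +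
          jA h1 h0 (perA h1 hN (heckeS2 h1 h0 i.2.1 i.2.2.1 g)) γ =
          a i * (perA h1 hN f γ + jA h1 h0 (perA h1 hN g) γ) := h2
      change (perA h1 hN (heckeS2 h1 h0 i.2.1 i.2.2.1 f) γ - a i * perA h1 hN f γ) +
        (jA h1 h0 (perA h1 hN (heckeS2 h1 h0 i.2.1 i.2.2.1 g)) γ -
          a i * jA h1 h0 (perA h1 hN g) γ) = 0
      linear_combination h5
    have h6 := pairA_injective h1 h0 hN (key.trans (map_zero _).symm)
    rw [Prod.mk_eq_zero] at h6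
    exact ⟨sub_eq_zero.mp h6.1, sub_eq_zero.mp h6.2⟩
  · have key : pairA h1 h0 hN (diaS2 h1 h0 δ f - d δ • f, diaS2 h1 h0 δ g - d δ • g) = 0 := by
      refine AddMonoidHom.ext fun γ => ?_
      have h2 := hd δ γ.toMul
      have h3 : diaChar h1 h0 δ χ = per h1 hN (diaS2 h1 h0 δ f) *
            (per h1 hN (diaS2 h1 h0 δ g)).comp (jG h1 h0) := by
        rw [hχ, map_mul, diaChar_jG, ← per_dia, ← per_dia]
      rw [h3] at h2
      have h4 : toAdd (χ γ.toMul) = perA h1 hN f γ + jA h1 h0 (perA h1 hN g) γ :=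
        DFunLike.congr_fun e γ
      rw [h4] at h2
      rw [pairA_apply, map_sub, map_sub, map_sub, map_smul, map_smul, map_smul]
      have h5 : perA h1 hN (diaS2 h1 h0 δ f) γ +
          jA h1 h0 (perA h1 hN (diaS2 h1 h0 δ g)) γ =
          d δ * (perA h1 hN f γ + jA h1 h0 (perA h1 hN g) γ) := h2
      change (perA h1 hN (diaS2 h1 h0 δ f) γ - d δ * perA h1 hN f γ) +
        (jA h1 h0 (perA h1 hN (diaS2 h1 h0 δ g)) γ -
          d δ * jA h1 h0 (perA h1 hN g) γ) = 0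
      linear_combination h5
    have h6 := pairA_injective h1 h0 hN (key.trans (map_zero _).symm)
    rw [Prod.mk_eq_zero] at h6
    exact ⟨sub_eq_zero.mp h6.1, sub_eq_zero.mp h6.2⟩

/-- **Points of the Hecke algebra of `G` come from cusp forms** (non-Eisenstein points). -/
theorem exists_eigenform_of_point {S : Finset ℕ} (lam : TG h1 h0 S →+* ℂ) (i₀ : Idx N S)
    (hi₀ : N ∣ i₀.1 - 1) (hlam : lam (genT h1 h0 S (Sum.inl i₀)) ≠ i₀.1 + 1) :
    ∃ g : S2 G, g ≠ 0 ∧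
      (∀ i : Idx N S, heckeS2 h1 h0 i.2.1 i.2.2.1 g = lam (genT h1 h0 S (Sum.inl i)) • g) ∧
      ∀ δ, diaS2 h1 h0 δ g = lam (genT h1 h0 S (Sum.inr δ)) • g := by
  obtain ⟨c, hc1, -, hT, hd⟩ := exists_eigenchar h1 h0 S lam
  have hpar := parabolic_of_eigen' h1 h0 i₀.2.1 i₀.2.2.1 hi₀ (hT i₀) hlam
  obtain ⟨f, g, e, h2, h3⟩ := exists_eigenforms h1 h0 hpar hT hd
  by_cases hf : f = 0
  · refine ⟨g, fun hg => hc1 ?_, fun i => (h2 i).2, fun δ => (h3 δ).2⟩
    ext γ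
    rw [e γ, hf, hg]
    have h4 : per h1 (Nat.pos_of_ne_zero (NeZero.ne N)) (0 : S2 G) = 1 :=
      congrArg Additive.toMul (map_zero (perHomG h1 (Nat.pos_of_ne_zero (NeZero.ne N))))
    rw [h4]
    simp
  · exact ⟨f, hf, fun i => (h2 i).1, fun δ => (h3 δ).1⟩

end Fermat.Agent.ESG
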