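import Fermat.Agent.ESG.Dim

set_option autoImplicit false
set_option linter.unusedSectionVars false

/-!
# The Eichler–Shimura isomorphism for `Γ₁(N) ≤ G ≤ Γ₀(N)`
-/

open UpperHalfPlane hiding I
open Filter Complex Matrix.SpecialLinearGroup CongruenceSubgroup ModularForm Module
open Fermat.Agent.ES Fermat.Agent.ESCore Fermat.Agent.ESCore.UnivG Fermat.Agent.ESCore.Gal
open ModularCurve.Period
open scoped MatrixGroups Manifold ModularForm Topology ComplexConjugate

noncomputable section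

namespace Fermat.Agent.ESG

variable {N : ℕ} {G : Subgroup SL(2, ℤ)} (h1 : Gamma1 N ≤ G) (h0 : G ≤ Gamma0 N)

/-- the period map, with values in the additive homomorphisms -/
def perA (hN : 0 < N) : S2 G →ₗ[ℂ] (Additive G →+ ℂ) where
  toFun f :=
    { toFun := fun γ => Multiplicative.toAdd (per h1 hN f γ.toMul)
      map_zero' := by
        change Multiplicative.toAdd (per h1 hN f 1) = 0
        rw [map_one]
        rfl
      map_add' := fun a b => by
        change Multiplicative.toAdd (per h1 hN f (a.toMul * b.toMul)) = _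
        rw [map_mul]
        rfl }
  map_add' f g := by
    refine AddMonoidHom.ext fun γ => ?_
    obtain ⟨F, hF, -⟩ := S2_primitive hN h1 f.2
    obtain ⟨H, hH, -⟩ := S2_primitive hN h1 g.2
    change Multiplicative.toAdd (per h1 hN (f + g) γ.toMul) =
      Multiplicative.toAdd (per h1 hN f γ.toMul) + Multiplicative.toAdd (per h1 hN g γ.toMul)
    rw [per_apply h1 hN (f + g) (hF.add hH) _ UpperHalfPlane.I,
      per_apply h1 hN f hF _ UpperHalfPlane.I, per_apply h1 hN g hH _ UpperHalfPlane.I]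
    simp only [toAdd_ofAdd, Pi.add_apply]
    ring
  map_smul' c f := by
    refine AddMonoidHom.ext fun γ => ?_
    obtain ⟨F, hF, -⟩ := S2_primitive hN h1 f.2
    change Multiplicative.toAdd (per h1 hN (c • f) γ.toMul) =
      c * Multiplicative.toAdd (per h1 hN f γ.toMul)
    rw [per_apply h1 hN (c • f) (hF.const_smul c) _ UpperHalfPlane.I,
      per_apply h1 hN f hF _ UpperHalfPlane.I]
    simp only [toAdd_ofAdd, Pi.smul_apply, smul_eq_mul]
    ring

theorem perA_per (hN : 0 < N) (f : S2 G) (γ : G) :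
    perA h1 hN f (Additive.ofMul γ) = Multiplicative.toAdd (per h1 hN f γ) := rfl

theorem perA_apply (hN : 0 < N) (f : S2 G) {F : ℍ → ℂ} (hF : IsPrimitive F f.1) (γ : G) (z : ℍ) :
    perA h1 hN f (Additive.ofMul γ) = F ((γ : SL(2, ℤ)) • z) - F z := by
  rw [perA_per, per_apply h1 hN f hF γ z]
  rfl

theorem perA_mem (hN : 0 < N) (f : S2 G) : perA h1 hN f ∈ parabolicHoms ℂ G ℂ := by
  intro γ hγ
  obtain ⟨F, hF, hFc⟩ := S2_primitive hN h1 f.2
  obtain ⟨δ, n, h⟩ := exists_conj_T hγ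
  obtain ⟨c, hc⟩ := hFc δ
  have hL : Tendsto (fun w : ℍ => F (δ • w)) atImInfty (𝓝 c) := by
    have := hc.zero.add_const c
    simp only [zero_add] at this
    refine this.congr fun w => ?_
    ring
  have h3 : Tendsto (fun w : ℍ => F ((γ : SL(2, ℤ)) • (δ • w)) - F (δ • w)) atImInfty
      (𝓝 (c - c)) := by
    refine Tendsto.sub ?_ hL
    have h2 := hL.comp (T_zpow_tendsto n)
    refine h2.congr fun w => ?_
    simp only [Function.comp_apply]
    rw [h w]
  have h2 : (fun w : ℍ => F ((γ : SL(2, ℤ)) • (δ • w)) - F (δ • w)) =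
      fun _ => perA h1 hN f (Additive.ofMul γ) := by
    ext w
    exact (perA_apply h1 hN f hF γ (δ • w)).symm
  rw [h2, sub_self] at h3
  exact tendsto_nhds_unique tendsto_const_nhds h3

include h1 h0 in
theorem jConj_mem {g : SL(2, ℤ)} (hg : g ∈ G) : jConjSL g ∈ G := by
  have h2 : g⁻¹ * jConjSL g ∈ Gamma1 N := by
    have hc := h0 hg
    rw [Gamma0_mem] at hc
    have hdet := g.det_coe
    rw [Matrix.det_fin_two] at hdet
    have hdet' : ((g 0 0 * g 1 1 - g 0 1 * g 1 0 : ℤ) : ZMod N) = 1 := by rw [hdet]; simp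
    push_cast at hdet'
    rw [hc, mul_zero, sub_zero] at hdet'
    rw [Gamma1_mem]
    have e00 : (jConjSL g : SL(2, ℤ)) 0 0 = g 0 0 := by
      change (jConjMat (g : Matrix (Fin 2) (Fin 2) ℤ)) 0 0 = _
      simp
    have e01 : (jConjSL g : SL(2, ℤ)) 0 1 = -g 0 1 := by
      change (jConjMat (g : Matrix (Fin 2) (Fin 2) ℤ)) 0 1 = _
      simp
    have e10 : (jConjSL g : SL(2, ℤ)) 1 0 = -g 1 0 := by
      change (jConjMat (g : Matrix (Fin 2) (Fin 2) ℤ)) 1 0 = _
      simp
    have e11 : (jConjSL g : SL(2, ℤ)) 1 1 = g 1 1 := by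
      change (jConjMat (g : Matrix (Fin 2) (Fin 2) ℤ)) 1 1 = _
      simp
    have i00 : (g⁻¹ : SL(2, ℤ)) 0 0 = g 1 1 := by simp [Matrix.adjugate_fin_two]
    have i01 : (g⁻¹ : SL(2, ℤ)) 0 1 = -g 0 1 := by simp [Matrix.adjugate_fin_two]
    have i10 : (g⁻¹ : SL(2, ℤ)) 1 0 = -g 1 0 := by simp [Matrix.adjugate_fin_two]
    have i11 : (g⁻¹ : SL(2, ℤ)) 1 1 = g 0 0 := by simp [Matrix.adjugate_fin_two]
    refine ⟨?_, ?_, ?_⟩
    · rw [Matrix.SpecialLinearGroup.coe_mul, Matrix.mul_apply, Fin.sum_univ_two, i00, i01, e00, e10]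
      push_cast
      rw [hc]
      linear_combination hdet'
    · rw [Matrix.SpecialLinearGroup.coe_mul, Matrix.mul_apply, Fin.sum_univ_two, i10, i11, e01, e11]
      push_cast
      rw [hc]
      linear_combination hdet'
    · rw [Matrix.SpecialLinearGroup.coe_mul, Matrix.mul_apply, Fin.sum_univ_two, i10, i11, e00, e10]
      push_cast
      rw [hc]
      ring
  have h3 := mul_mem hg (h1 h2)
  rwa [mul_inv_cancel_left] at h3

/-- conjugation by `diag(1, -1)` -/
def jG : G →* G where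
  toFun g := ⟨jConjSL g, jConj_mem h1 h0 g.2⟩
  map_one' := Subtype.ext (map_one jConjSL)
  map_mul' _ _ := Subtype.ext (map_mul jConjSL _ _)

theorem coe_jG (g : G) : ((jG h1 h0 g : G) : SL(2, ℤ)) = jConjSL g := rfl

theorem jG_jG (g : G) : jG h1 h0 (jG h1 h0 g) = g := Subtype.ext (jConjSL_jConjSL _)

/-- the involution on the homomorphisms -/
def jA : (Additive G →+ ℂ) →ₗ[ℂ] (Additive G →+ ℂ) where
  toFun c := c.comp (MonoidHom.toAdditive (jG h1 h0))
  map_add' _ _ := rfl
  map_smul' _ _ := rfl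

theorem jA_apply (c : Additive G →+ ℂ) (g : G) :
    jA h1 h0 c (Additive.ofMul g) = c (Additive.ofMul (jG h1 h0 g)) := rfl

theorem jA_mem {c : Additive G →+ ℂ} (hc : c ∈ parabolicHoms ℂ G ℂ) :
    jA h1 h0 c ∈ parabolicHoms ℂ G ℂ := by
  intro γ hγ
  refine hc (jG h1 h0 γ) ?_
  rw [coe_jG, jConjSL_coe, jConjMat_trace]
  exact hγ

/-- the pair of period maps -/
def pairA (hN : 0 < N) : (S2 G × S2 G) →ₗ[ℂ] (Additive G →+ ℂ) :=
  (perA h1 hN).comp (LinearMap.fst ℂ _ _) +
    ((jA h1 h0).comp (perA h1 hN)).comp (LinearMap.snd ℂ _ _)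

theorem pairA_apply (hN : 0 < N) (f g : S2 G) :
    pairA h1 h0 hN (f, g) = perA h1 hN f + jA h1 h0 (perA h1 hN g) := rfl

theorem pairA_mem (hN : 0 < N) (x : S2 G × S2 G) : pairA h1 h0 hN x ∈ parabolicHoms ℂ G ℂ :=
  add_mem (perA_mem h1 hN _) (jA_mem h1 h0 (perA_mem h1 hN _))

/-- **Injectivity.** -/
theorem pairA_injective (hN : 0 < N) : Function.Injective (pairA h1 h0 hN) := by
  rw [injective_iff_map_eq_zero]
  rintro ⟨p, q⟩ h
  have hN' : (0 : ℝ) < N := by exact_mod_cast hN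
  have : NeZero N := ⟨hN.ne'⟩
  have : G.FiniteIndex := Subgroup.finiteIndex_of_le h1
  obtain ⟨P, hP, hPc⟩ := S2_primitive hN h1 p.2
  obtain ⟨Q, hQ, hQc⟩ := S2_primitive hN h1 q.2
  have key : ∀ (γ : G) (z : ℍ), (P ((γ : SL(2, ℤ)) • z) - P z) +
      conj (cj Q ((γ : SL(2, ℤ)) • z) - cj Q z) = 0 := by
    intro γ z
    have h2 := DFunLike.congr_fun h (Additive.ofMul γ)
    rw [pairA_apply, AddMonoidHom.add_apply, jA_apply, perA_apply h1 hN p hP γ z,
      perA_apply h1 hN q hQ _ (J • z)] at h2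
    refine Eq.trans ?_ h2
    rw [map_sub]
    simp only [cj, J_smul_smul, Complex.conj_conj, coe_jG]
  have hR := cj_cuspConst hQc
  have hK1 : ∃ c, ∀ z, (P + cj Q) z = c := by
    refine const_of_re_invariant hN' (hPc.add hR) (Γ := G) fun γ hγ z => ?_
    have h1 := congrArg Complex.re (key ⟨γ, hγ⟩ z)
    simp only [Complex.add_re, Complex.sub_re, Complex.conj_re, Complex.zero_re] at h1
    simp only [Pi.add_apply, Complex.add_re]
    linarith
  have hK2 : ∃ c, ∀ z, ((-I) • (P + (-1 : ℂ) • cj Q)) z = c := by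
    refine const_of_re_invariant hN' ((hPc.add (hR.smul (-1))).smul (-I)) (Γ := G)
      fun γ hγ z => ?_
    have h1 := congrArg Complex.im (key ⟨γ, hγ⟩ z)
    simp only [Complex.add_im, Complex.sub_im, Complex.conj_im, Complex.zero_im] at h1
    simp only [Pi.smul_apply, Pi.add_apply, smul_eq_mul, Complex.mul_re, Complex.neg_re,
      Complex.neg_im, Complex.I_re, Complex.I_im, Complex.add_im, Complex.mul_im, Complex.one_re,
      Complex.one_im]
    linarith
  obtain ⟨c₁, h₁⟩ := hK1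
  obtain ⟨c₂, h₂⟩ := hK2
  have hPconst : ∀ z, P z = (c₁ + I * c₂) / 2 := by
    intro z
    have e1 := h₁ z
    have e2 := h₂ z
    simp only [Pi.smul_apply, Pi.add_apply, smul_eq_mul] at e1 e2
    rw [← e1, ← e2]
    have hI := Complex.I_mul_I
    linear_combination ((P z - cj Q z) / 2) * hI
  have hRconst : ∀ z, cj Q z = (c₁ - I * c₂) / 2 := by
    intro z
    have e1 := h₁ z
    simp only [Pi.add_apply] at e1
    linear_combination e1 - hPconst z
  have hQconst : ∀ z, Q z = conj ((c₁ - I * c₂) / 2) := by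
    intro z
    have := congrFun (cj_cj Q) z
    rw [← this, cj, hRconst]
  refine Prod.ext ?_ ?_
  · exact Subtype.ext (hP.eq_zero_of_const hPconst)
  · exact Subtype.ext (hQ.eq_zero_of_const hQconst)

/-- **The Eichler–Shimura isomorphism.** -/
theorem range_pairA [NeZero N] (hN : 0 < N) :
    LinearMap.range (pairA h1 h0 hN) = parabolicHoms ℂ G ℂ := by
  have : G.FiniteIndex := Subgroup.finiteIndex_of_le h1
  have hle : LinearMap.range (pairA h1 h0 hN) ≤ parabolicHoms ℂ G ℂ := by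
    rintro _ ⟨x, rfl⟩
    exact pairA_mem h1 h0 hN x
  refine Submodule.eq_of_le_of_finrank_le hle ?_
  rw [LinearMap.finrank_range_of_inj (pairA_injective h1 h0 hN), Module.finrank_prod]
  have := finrank_par_le_two_mul h1 h0
  omega

theorem exists_pair [NeZero N] (hN : 0 < N) {c : Additive G →+ ℂ}
    (hc : c ∈ parabolicHoms ℂ G ℂ) : ∃ f g : S2 G, c = perA h1 hN f + jA h1 h0 (perA h1 hN g) := by
  rw [← range_pairA h1 h0 hN] at hc
  obtain ⟨⟨f, g⟩, h⟩ := hc
  exact ⟨f, g, h.symm⟩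

end Fermat.Agent.ESG
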