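import Fermat.Agent.ESG.Eig
import Fermat.Agent.RT.AL6

set_option autoImplicit false
set_option linter.unusedSectionVars false

/-!
# Points of the Hecke algebra of `G` and newforms
-/

open UpperHalfPlane hiding I
open Filter Complex Matrix.SpecialLinearGroup CongruenceSubgroup ModularForm ModularFormClass Module
open Fermat.Agent.ES Fermat.Agent.ESCore Fermat.Agent.ESCore.UnivG Fermat.Agent.ESCore.Gal
open Fermat.Agent.ESCore.Univ (Idx)
open scoped MatrixGroups Manifold ModularForm Topology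

noncomputable section

namespace Fermat.Agent.ESG

/-- **Common eigenvectors** of a commuting family. -/
theorem exists_common_eig {V ι : Type*} [AddCommGroup V] [Module ℂ V] [FiniteDimensional ℂ V]
    (T : ι → Module.End ℂ V) (hT : ∀ i j, T i * T j = T j * T i) :
    ∀ (n : ℕ) (W : Submodule ℂ V), W ≠ ⊥ → finrank ℂ W ≤ n → (∀ i, ∀ w ∈ W, T i w ∈ W) →
      ∃ v ∈ W, v ≠ 0 ∧ ∀ i, ∃ a : ℂ, T i v = a • v := by
  intro n
  induction n with
  | zero =>
    intro W hW hn _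
    exact absurd (Submodule.finrank_eq_zero.mp (Nat.le_zero.mp hn)) hW
  | succ n ih =>
    intro W hW hn hst
    by_cases hsc : ∀ i, ∃ a : ℂ, ∀ w ∈ W, T i w = a • w
    · obtain ⟨v, hv, hv0⟩ := Submodule.exists_mem_ne_zero_of_ne_bot hW
      exact ⟨v, hv, hv0, fun i => ⟨_, (hsc i).choose_spec v hv⟩⟩
    · push Not at hsc
      obtain ⟨i, hi⟩ := hsc
      -- an eigenvalue of `T i` on `W`
      have hnt : Nontrivial W := Submodule.nontrivial_iff_ne_bot.mpr hW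
      set t : Module.End ℂ W := (T i).restrict (hst i) with ht
      obtain ⟨a, ha⟩ := Module.End.exists_eigenvalue t
      obtain ⟨w, hw⟩ := ha.exists_hasEigenvector
      have hw1 : T i (w : V) = a • (w : V) := congrArg Subtype.val hw.apply_eq_smul
      set W' : Submodule ℂ V := W ⊓ (T i).eigenspace a with hW'
      have hwW' : (w : V) ∈ W' := ⟨w.2, Module.End.mem_eigenspace_iff.mpr hw1⟩
      have hW'0 : W' ≠ ⊥ := by
        intro h
        rw [h, Submodule.mem_bot] at hwW'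
        exact hw.2 (Subtype.ext hwW')
      have hlt : W' < W := by
        refine lt_of_le_of_ne inf_le_left fun h => ?_
        obtain ⟨x, hx, hx'⟩ := hi a
        rw [← h] at hx
        exact hx' (Module.End.mem_eigenspace_iff.mp hx.2)
      have hfin := Submodule.finrank_lt_finrank_of_lt hlt
      obtain ⟨v, hv, hv0, hv'⟩ := ih W' hW'0 (by omega) fun j x hx => by
        refine ⟨hst j x hx.1, Module.End.mem_eigenspace_iff.mpr ?_⟩
        have h2 := Module.End.mem_eigenspace_iff.mp hx.2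
        have h3 := LinearMap.congr_fun (hT i j) x
        rw [Module.End.mul_apply, Module.End.mul_apply, h2, map_smul] at h3
        exact h3
      exact ⟨v, hv.1, hv0, hv'⟩

variable {N : ℕ} [NeZero N] {G : Subgroup SL(2, ℤ)} (h1 : Gamma1 N ≤ G) (h0 : G ≤ Gamma0 N)

theorem genS2_comm (S : Finset ℕ) (i j : Idx N S ⊕ Gamma0 N) :
    genS2 h1 h0 S i * genS2 h1 h0 S j = genS2 h1 h0 S j * genS2 h1 h0 S i := by
  obtain ⟨π, hπ⟩ := exists_hom_S2 h1 h0 S
  rw [← hπ, ← hπ, ← map_mul, ← map_mul, mul_comm]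

/-- the eigenvector can be chosen to be an eigenvector of all `T_l`, `l ∤ N` -/
theorem exists_full_eigenform {S : Finset ℕ} {a : Idx N S → ℂ} {d : Gamma0 N → ℂ} {g : S2 G}
    (hg : g ≠ 0) (ha : ∀ i : Idx N S, heckeS2 h1 h0 i.2.1 i.2.2.1 g = a i • g)
    (hd : ∀ δ, diaS2 h1 h0 δ g = d δ • g) :
    ∃ (g' : S2 G) (b : ℕ → ℂ), g' ≠ 0 ∧
      (∀ (l : ℕ) (hl : l.Prime) (hN : ¬ l ∣ N), heckeS2 h1 h0 hl hN g' = b l • g') ∧
      (∀ i : Idx N S, b i.1 = a i) ∧ ∀ δ, diaS2 h1 h0 δ g' = d δ • g' := by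
  have : G.FiniteIndex := Subgroup.finiteIndex_of_le h1
  have : FiniteDimensional ℂ (S2 G) := finite_S2
  let W : Submodule ℂ (S2 G) :=
    { carrier := {f | (∀ i : Idx N S, heckeS2 h1 h0 i.2.1 i.2.2.1 f = a i • f) ∧
        ∀ δ, diaS2 h1 h0 δ f = d δ • f}
      add_mem' := by
        rintro f f' ⟨h2, h3⟩ ⟨h4, h5⟩
        exact ⟨fun i => by rw [map_add, h2, h4, smul_add], fun δ => by
          rw [map_add, h3, h5, smul_add]⟩
      zero_mem' := ⟨fun i => by rw [map_zero, smul_zero], fun δ => by rw [map_zero, smul_zero]⟩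
      smul_mem' := by
        rintro c f ⟨h2, h3⟩
        exact ⟨fun i => by rw [map_smul, h2, smul_comm], fun δ => by
          rw [map_smul, h3, smul_comm]⟩ }
  have hcomm := genS2_comm h1 h0 (∅ : Finset ℕ)
  have hW : W ≠ ⊥ := by
    intro h
    have : g ∈ W := ⟨ha, hd⟩
    rw [h] at this
    exact hg this
  obtain ⟨v, hv, hv0, hv'⟩ := exists_common_eig
    (fun i : Idx N ∅ => heckeS2 h1 h0 i.2.1 i.2.2.1)
    (fun i j => hcomm (Sum.inl i) (Sum.inl j)) _ W hW le_rfl (by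
      rintro i w ⟨h2, h3⟩
      refine ⟨fun j => ?_, fun δ => ?_⟩
      · have h4 := LinearMap.congr_fun
          (hcomm (Sum.inl ⟨j.1, j.2.1, j.2.2.1, Finset.notMem_empty _⟩) (Sum.inl i)) w
        change heckeS2 h1 h0 j.2.1 j.2.2.1 (heckeS2 h1 h0 i.2.1 i.2.2.1 w) =
          heckeS2 h1 h0 i.2.1 i.2.2.1 (heckeS2 h1 h0 j.2.1 j.2.2.1 w) at h4
        rw [h4, h2, map_smul]
      · have h4 := LinearMap.congr_fun (hcomm (Sum.inr δ) (Sum.inl i)) w
        change diaS2 h1 h0 δ (heckeS2 h1 h0 i.2.1 i.2.2.1 w) =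
          heckeS2 h1 h0 i.2.1 i.2.2.1 (diaS2 h1 h0 δ w) at h4
        rw [h4, h3, map_smul])
  have key : ∀ l : ℕ, ∃ b : ℂ, ∀ (hl : l.Prime) (hN : ¬ l ∣ N),
      heckeS2 h1 h0 hl hN v = b • v := by
    intro l
    by_cases h : l.Prime ∧ ¬ l ∣ N
    · obtain ⟨b, hb⟩ := hv' ⟨l, h.1, h.2, Finset.notMem_empty _⟩
      exact ⟨b, fun _ _ => hb⟩
    · exact ⟨0, fun hl hN => absurd ⟨hl, hN⟩ h⟩
  choose b hb using key
  refine ⟨v, b, hv0, hb, fun i => ?_, hv.2⟩
  have huniq : ∀ (x y : ℂ) (w : S2 G), w = x • v → w = y • v → x = y := by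
    intro x y w h2 h3
    have h4 : (x - y) • v = 0 := by rw [_root_.sub_smul x y v, ← h2, ← h3, sub_self]
    exact sub_eq_zero.mp ((smul_eq_zero.mp h4).resolve_right hv0)
  exact huniq _ _ _ (hb i.1 i.2.1 i.2.2.1) (hv.1 i)

/-- **Points of the Hecke algebra of `G` and newforms**: a non-Eisenstein point with nebentypus
`ψ²` is the twist by `ψ` of a newform. -/
theorem exists_newform_of_point {N D : ℕ} [NeZero N] [NeZero D] (hND : N.Coprime D)
    (hD : Squarefree D) (ψ : DirichletCharacter ℂ D) {G : Subgroup SL(2, ℤ)}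
    (h1 : Gamma1 (N * D) ≤ G) (h0 : G ≤ Gamma0 (N * D)) {S : Finset ℕ}
    (lam : TG h1 h0 S →+* ℂ) (i₀ : Idx (N * D) S) (hi₀ : N * D ∣ i₀.1 - 1)
    (hlam : lam (genT h1 h0 S (Sum.inl i₀)) ≠ i₀.1 + 1)
    (hψ : ∀ δ : Gamma0 (N * D), lam (genT h1 h0 S (Sum.inr δ)) =
      ψ (((δ : SL(2, ℤ)) 1 1 : ℤ) : ZMod D) ^ 2) :
    ∃ (M : ℕ) (f : CuspForm (Gamma0 M) 2), M ∣ N * D ^ 2 ∧ f.IsNewform ∧
      (∀ i : Idx (N * D) S, qCoeff f i.1 =
        ψ⁻¹ (i.1 : ZMod D) * lam (genT h1 h0 S (Sum.inl i))) ∧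
      ∀ q : ℕ, q.Prime → q ∣ D → RT.AL.NontrivAt D ψ q → M.factorization q = 2 := by
  have : NeZero (N * D) := ⟨mul_ne_zero (NeZero.ne N) (NeZero.ne D)⟩
  obtain ⟨g, hg, hT, hd⟩ := exists_eigenform_of_point h1 h0 lam i₀ hi₀ hlam
  obtain ⟨g', b, hg', hb, hba, hd'⟩ := exists_full_eigenform h1 h0 hg hT hd
  obtain ⟨M, f, hM, hf, h2, h3⟩ := RT.AL.exists_newform_level_G hND hD ψ h1 h0 g' hg'
    (fun γ hγ => by
      have h4 := congrArg Subtype.val (hd' ⟨γ, hγ⟩)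
      rw [hψ] at h4
      exact h4) hb
  exact ⟨M, f, hM, hf, fun i => by rw [h2 i.1 i.2.1 i.2.2.1, hba], h3⟩

end Fermat.Agent.ESG
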