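import Fermat.Agent.ESCore.SuppG
import Fermat.Agent.ES.EichlerShimura

set_option autoImplicit false
set_option linter.unusedSectionVars false

/-!
# Vector valued forms for the groups between `Γ₁(N)` and `Γ₀(N)`
-/

open UpperHalfPlane hiding I
open Filter Matrix.SpecialLinearGroup CongruenceSubgroup ModularForm
open Fermat.Agent.ES Fermat.Agent.ESCore Fermat.Agent.ESCore.UnivG Fermat.Agent.ESCore.Gal
open scoped MatrixGroups Manifold ModularForm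

noncomputable section

namespace Fermat.Agent.ESG

variable {N : ℕ} {Γ : Subgroup SL(2, ℤ)} {k : ℤ}

theorem one_slash {f : ℍ → ℂ} (hf : f ∈ mform (1 : Γ →* ℂˣ) k) {γ : SL(2, ℤ)} (hγ : γ ∈ Γ) :
    f ∣[k] γ = f := by
  have := hf.2.1 ⟨γ, hγ⟩
  rwa [MonoidHom.one_apply, Units.val_one, one_smul] at this

/-- the vector valued form attached to a form -/
def vvF (Γ : Subgroup SL(2, ℤ)) (k : ℤ) :
    mform (1 : Γ →* ℂˣ) k →ₗ[ℂ] (SL(2, ℤ) ⧸ Γ → ℍ → ℂ) where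
  toFun f q := Quotient.liftOn' q (fun g => f.1 ∣[k] g⁻¹) (fun g g' h => by
    have h1 : g⁻¹ * g' ∈ Γ := QuotientGroup.leftRel_apply.mp h
    have h2 : g'⁻¹ = (g⁻¹ * g')⁻¹ * g⁻¹ := by group
    rw [h2, SlashAction.slash_mul, one_slash f.2 (inv_mem h1)])
  map_add' f g := by
    funext p
    obtain ⟨h, rfl⟩ := QuotientGroup.mk_surjective p
    exact SlashAction.add_slash _ _ _ _
  map_smul' c f := by
    funext p
    obtain ⟨h, rfl⟩ := QuotientGroup.mk_surjective p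
    exact ModularForm.SL_smul_slash _ _ _ _

theorem vvF_mk (f : mform (1 : Γ →* ℂˣ) k) (g : SL(2, ℤ)) :
    vvF Γ k f (g : SL(2, ℤ) ⧸ Γ) = f.1 ∣[k] g⁻¹ := rfl

theorem vvF_mem [Fintype (SL(2, ℤ) ⧸ Γ)] [DecidableEq (SL(2, ℤ) ⧸ Γ)]
    (f : mform (1 : Γ →* ℂˣ) k) : vvF Γ k f ∈ VV (SL(2, ℤ) ⧸ Γ) k := by
  refine VV_of_slash (fun p => ?_) (fun p => ?_) (fun γ p => ?_)
  · obtain ⟨g, rfl⟩ := QuotientGroup.mk_surjective p
    rw [vvF_mk]
    exact f.2.1.slash k _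
  · obtain ⟨g, rfl⟩ := QuotientGroup.mk_surjective p
    rw [vvF_mk]
    exact f.2.2.2 _
  · obtain ⟨g, rfl⟩ := QuotientGroup.mk_surjective p
    have h1 : γ⁻¹ • (g : SL(2, ℤ) ⧸ Γ) = ((γ⁻¹ * g : SL(2, ℤ)) : SL(2, ℤ) ⧸ Γ) := rfl
    rw [h1, vvF_mk, vvF_mk, ← SlashAction.slash_mul, mul_inv_rev, inv_inv]

theorem negTriv_of_mem (hneg : (-1 : SL(2, ℤ)) ∈ Γ) : NegTriv (SL(2, ℤ) ⧸ Γ) := by
  intro p
  obtain ⟨g, rfl⟩ := QuotientGroup.mk_surjective p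
  have h1 : (-1 : SL(2, ℤ)) • (g : SL(2, ℤ) ⧸ Γ) = ((-1 * g : SL(2, ℤ)) : SL(2, ℤ) ⧸ Γ) := rfl
  rw [h1, QuotientGroup.eq]
  have h2 : (-1 * g : SL(2, ℤ))⁻¹ * g = -1 := by
    rw [mul_inv_rev, inv_neg, inv_one]
    ext i j
    simp
  rw [h2]
  exact hneg

/-- a form of weight `12` which is not invariant under a given element -/
theorem exists_not_inv [NeZero N] (h1 : Gamma1 N ≤ Γ) (h0 : Γ ≤ Gamma0 N)
    (hneg : (-1 : SL(2, ℤ)) ∈ Γ) {γ : SL(2, ℤ)} (hγ : γ ∉ Γ) :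
    ∃ f ∈ mform (1 : Γ →* ℂˣ) 12, f ∣[(12 : ℤ)] γ ≠ f := by
  by_cases hγ0 : γ ∈ Gamma0 N
  · -- a character
    set H : Subgroup (ZMod N)ˣ := (Γ.subgroupOf (Gamma0 N)).map (dU N) with hH
    set a : (ZMod N)ˣ := dU N ⟨γ, hγ0⟩ with ha
    have haH : a ∉ H := by
      rintro ⟨δ, hδ, e⟩
      apply hγ
      have h2 : dU N (δ⁻¹ * ⟨γ, hγ0⟩) = 1 := by
        rw [map_mul, map_inv, e, ha, inv_mul_cancel]
      have h3 := mem_of_dU h1 h2
      have h4 : (γ : SL(2, ℤ)) = (δ : SL(2, ℤ)) * ((δ⁻¹ * ⟨γ, hγ0⟩ : Gamma0 N) : SL(2, ℤ)) := by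
        change γ = (δ : SL(2, ℤ)) * ((δ : SL(2, ℤ))⁻¹ * γ)
        rw [mul_inv_cancel_left]
      rw [h4]
      exact mul_mem (Subgroup.mem_subgroupOf.mp hδ) h3
    have hne : (QuotientGroup.mk a : (ZMod N)ˣ ⧸ H) ≠ 1 := by
      rwa [Ne, QuotientGroup.eq_one_iff]
    have : NeZero (Monoid.exponent ((ZMod N)ˣ ⧸ H)) :=
      ⟨Monoid.exponent_ne_zero_of_finite (G := (ZMod N)ˣ ⧸ H)⟩
    obtain ⟨ψ, hψ⟩ := CommGroup.exists_apply_ne_one_of_hasEnoughRootsOfUnity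
      ((ZMod N)ˣ ⧸ H) ℂ hne
    set χ : DirichletCharacter ℂ N := MulChar.ofUnitHom (ψ.comp (QuotientGroup.mk' H)) with hχ
    have hneb : ∀ δ : Gamma0 N, ((neb χ δ : ℂˣ) : ℂ) =
        ((ψ (QuotientGroup.mk' H (dU N δ)) : ℂˣ) : ℂ) := by
      intro δ
      rw [neb, MonoidHom.comp_apply, MulChar.coe_toUnitHom, hχ, MulChar.ofUnitHom_coe]
      rfl
    have hΓ : ∀ δ : Gamma0 N, (δ : SL(2, ℤ)) ∈ Γ → ((neb χ δ : ℂˣ) : ℂ) = 1 := by
      intro δ hδ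
      have h2 : dU N δ ∈ H := ⟨δ, Subgroup.mem_subgroupOf.mpr hδ, rfl⟩
      rw [hneb, QuotientGroup.mk'_apply, (QuotientGroup.eq_one_iff _).mpr h2, map_one,
        Units.val_one]
    have hχ1 : χ (-1) = 1 := by
      have h2 := hΓ ⟨-1, h0 hneg⟩ hneg
      rw [neb_coe] at h2
      rw [← h2]
      congr 1
      simp
    have hN : 1 < N := by
      rcases Nat.lt_or_ge 1 N with h | h
      · exact h
      · exfalso
        have hN1 : N = 1 := le_antisymm h (Nat.pos_of_ne_zero (NeZero.ne N))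
        subst hN1
        apply hγ
        refine h1 ?_
        rw [Gamma1_mem]
        exact ⟨Subsingleton.elim _ _, Subsingleton.elim _ _, Subsingleton.elim _ _⟩
    have hE := hasQ_eisN (k := 12) (by norm_num) (by decide) hN hχ1
    have hne' : eisN 12 χ ≠ 0 := by
      intro h
      rw [h] at hE
      have h2 := hE.unique one_pos (Fermat.Agent.Eis16.HasQ.zero 1)
      have h3 := EisG.eisCoeff_one 12 χ
      rw [h2, map_zero] at h3
      exact zero_ne_one h3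
    have hmem := eisN_mem (k := 12) (by norm_num) χ
    refine ⟨eisN 12 χ, ⟨hmem.1, fun δ => ?_, hmem.2.2⟩, fun h => ?_⟩
    · rw [MonoidHom.one_apply, Units.val_one]
      refine (hmem.2.1 ⟨δ, h0 δ.2⟩).trans ?_
      rw [hΓ ⟨δ, h0 δ.2⟩ δ.2]
    · have h2 := hmem.2.1 ⟨γ, hγ0⟩
      have h3 : eisN 12 χ ∣[(12 : ℤ)] γ = ((neb χ ⟨γ, hγ0⟩ : ℂˣ) : ℂ) • eisN 12 χ := h2
      rw [h] at h3
      have h4 : (((neb χ ⟨γ, hγ0⟩ : ℂˣ) : ℂ) - 1) • eisN 12 χ = 0 := by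
        rw [sub_smul, one_smul, ← h3, sub_self]
      rcases smul_eq_zero.mp h4 with h5 | h5
      · apply hψ
        apply Units.ext
        have h6 := sub_eq_zero.mp h5
        rw [hneb] at h6
        exact h6
      · exact hne' h5
  · refine ⟨hDelta N, ⟨CuspFormClass.holo (hDelta N), fun δ => ?_, fun A => ?_⟩, ?_⟩
    · rw [MonoidHom.one_apply, Units.val_one, one_smul]
      exact cusp_slash (hDelta N) (h0 δ.2)
    · exact (CuspFormClass.zero_at_infty_slash (hDelta N) A).isBoundedAtImInfty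
    · refine hDelta_slash_ne N γ fun h => hγ0 ?_
      rw [Gamma0_mem]
      exact (ZMod.intCast_zmod_eq_zero_iff_dvd _ _).mpr h

theorem hasSep [NeZero N] [Fintype (SL(2, ℤ) ⧸ Γ)] [DecidableEq (SL(2, ℤ) ⧸ Γ)]
    (h1 : Gamma1 N ≤ Γ) (h0 : Γ ≤ Gamma0 N) (hneg : (-1 : SL(2, ℤ)) ∈ Γ) :
    HasSep (SL(2, ℤ) ⧸ Γ) := by
  set M := mform (1 : Γ →* ℂˣ) 12 with hM
  -- the subspaces
  let V : {p : SL(2, ℤ) ⧸ Γ // p ≠ ((1 : SL(2, ℤ)) : SL(2, ℤ) ⧸ Γ)} → Subspace ℂ M := fun p =>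
    { carrier := {f | vvF Γ 12 f p.1 = f.1}
      add_mem' := by
        intro f g hf hg
        change vvF Γ 12 (f + g) p.1 = f.1 + g.1
        rw [map_add, Pi.add_apply, hf, hg]
      zero_mem' := by
        change vvF Γ 12 0 p.1 = 0
        rw [map_zero]
        rfl
      smul_mem' := by
        intro c f hf
        change vvF Γ 12 (c • f) p.1 = c • f.1
        rw [map_smul, Pi.smul_apply, hf] }
  have hV : ⋃ p, (V p : Set M) ≠ Set.univ := by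
    intro h
    obtain ⟨⟨p, hp⟩, htop⟩ := Subspace.exists_eq_top_of_iUnion_eq_univ h
    obtain ⟨g, rfl⟩ := QuotientGroup.mk_surjective p
    have hg : g⁻¹ ∉ Γ := by
      intro hg
      apply hp
      rw [eq_comm, QuotientGroup.eq, inv_one, one_mul]
      exact inv_mem_iff.mp hg
    obtain ⟨f, hf, hne⟩ := exists_not_inv h1 h0 hneg hg
    have h2 : (⟨f, hf⟩ : M) ∈ V ⟨(g : SL(2, ℤ) ⧸ Γ), hp⟩ := by
      rw [htop]
      exact Submodule.mem_top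
    exact hne h2
  obtain ⟨f, hf⟩ : ∃ f : M, f ∉ ⋃ p, (V p : Set M) := by
    by_contra hcon
    push Not at hcon
    exact hV (Set.eq_univ_of_forall hcon)
  refine ⟨12, vvF Γ 12 f, vvF_mem f, fun p q hpq => ?_⟩
  obtain ⟨g, rfl⟩ := QuotientGroup.mk_surjective p
  obtain ⟨g', rfl⟩ := QuotientGroup.mk_surjective q
  rw [vvF_mk, vvF_mk] at hpq
  by_contra hcon
  apply hf
  rw [Set.mem_iUnion]
  refine ⟨⟨((g'⁻¹ * g : SL(2, ℤ)) : SL(2, ℤ) ⧸ Γ), fun h => hcon ?_⟩, ?_⟩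
  · rw [QuotientGroup.eq] at h ⊢
    have h2 := inv_mem h
    rw [mul_one, inv_inv] at h2
    have h3 := inv_mem h2
    rwa [mul_inv_rev, inv_inv] at h3
  · change vvF Γ 12 f ((g'⁻¹ * g : SL(2, ℤ)) : SL(2, ℤ) ⧸ Γ) = f.1
    rw [vvF_mk, mul_inv_rev, inv_inv, SlashAction.slash_mul, hpq, ← SlashAction.slash_mul,
      inv_mul_cancel, SlashAction.slash_one]

end Fermat.Agent.ESG
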